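import Fermat.Agent.Lowering.P1.Primes.Finite
import Fermat.Agent.Frobenius.Global
import Fermat.Agent.Places.Basic
import Fermat.Agent.Reducible.Cyclotomic

/-!
# Cocycles of the adjoint representation: elementary facts
-/

set_option autoImplicit false
set_option linter.unusedSectionVars false
set_option linter.style.haveILetI false

noncomputable section

open scoped Pointwise

namespace FLTAgent.Lowering.P1.Primes

local notation "LL" => AlgebraicClosure ℚ
local notation "GG" => (AlgebraicClosure ℚ ≃ₐ[ℚ] AlgebraicClosure ℚ)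

variable {p : ℕ} [Fact p.Prime] (D : Datum p) (k : Type) [Field k] [Algebra (ZMod p) k]

theorem tw_eq (e : ℕ) (σ : GG) : D.tw k e σ = twG p k e (D.rb σ) := rfl

theorem tw_one (e : ℕ) (A : Matrix (Fin 2) (Fin 2) k) : D.tw k e 1 A = A := by
  rw [tw_eq, map_one, twG_one]

theorem tw_mul (e : ℕ) (σ τ : GG) (A : Matrix (Fin 2) (Fin 2) k) :
    D.tw k e (σ * τ) A = D.tw k e σ (D.tw k e τ A) := by
  rw [tw_eq, tw_eq, tw_eq, map_mul, twG_mul]

theorem tw_of_rb (e : ℕ) {σ : GG} (h : D.rb σ = 1) (A : Matrix (Fin 2) (Fin 2) k) :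
    D.tw k e σ A = A := by
  rw [tw_eq, h, twG_one]

theorem trace_tw (e : ℕ) (σ : GG) {A : Matrix (Fin 2) (Fin 2) k} (hA : Matrix.trace A = 0) :
    Matrix.trace (D.tw k e σ A) = 0 := by
  rw [tw_eq, twG_apply, Matrix.trace_smul, Matrix.trace_mul_comm, mul_assoc, ← Units.val_mul,
    ← map_mul, inv_mul_cancel, map_one, Units.val_one, mul_one, hA, smul_zero]

/-- The pairing is equivariant. -/
theorem trace_tw_mul (σ : GG) (A B : Matrix (Fin 2) (Fin 2) k) :
    Matrix.trace (D.tw k 0 σ A * D.tw k 1 σ B) =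
      algebraMap (ZMod p) k (D.om σ) * Matrix.trace (A * B) := by
  rw [tw_eq, tw_eq, twG_apply, twG_apply]
  set g : Matrix (Fin 2) (Fin 2) k :=
    (Matrix.GeneralLinearGroup.map (algebraMap (ZMod p) k) (D.rb σ) : Matrix (Fin 2) (Fin 2) k)
  set g' : Matrix (Fin 2) (Fin 2) k :=
    (Matrix.GeneralLinearGroup.map (algebraMap (ZMod p) k) (D.rb σ)⁻¹ : Matrix (Fin 2) (Fin 2) k)
  have hgg : g' * g = 1 := by
    simp only [g, g']
    rw [← Units.val_mul, ← map_mul, inv_mul_cancel, map_one, Units.val_one]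
  have e1 : g * (A * g') * (g * (B * g')) = g * (A * B * g') :=
    calc g * (A * g') * (g * (B * g')) = g * (A * ((g' * g) * (B * g'))) := by
          simp only [mul_assoc]
      _ = _ := by rw [hgg, one_mul, mul_assoc]
  rw [pow_zero, map_one, one_smul, pow_one, mul_smul_comm, e1, Matrix.trace_smul,
    Matrix.trace_mul_comm g, mul_assoc (A * B), hgg, mul_one, smul_eq_mul]
  rfl

section Cochain

variable {G : Type} [Group G] {ι : G →* GG} {e : ℕ}

theorem coc_one {c : G → Matrix (Fin 2) (Fin 2) k} (hc : c ∈ D.cocycles k e ι) : c 1 = 0 := by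
  have h := hc.2.2 1 1
  rw [mul_one, map_one, tw_one] at h
  simpa using h

theorem coc_inv {c : G → Matrix (Fin 2) (Fin 2) k} (hc : c ∈ D.cocycles k e ι) (g : G) :
    D.tw k e (ι g) (c g⁻¹) = - c g := by
  have h := hc.2.2 g g⁻¹
  rw [mul_inv_cancel, coc_one D k hc] at h
  exact eq_neg_of_add_eq_zero_right h.symm

theorem coc_conj {c : G → Matrix (Fin 2) (Fin 2) k} (hc : c ∈ D.cocycles k e ι) (g h : G) :
    c (g * h * g⁻¹) =
      c g + D.tw k e (ι g) (c h) - D.tw k e (ι (g * h * g⁻¹)) (c g) := by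
  rw [hc.2.2, hc.2.2, map_mul ι (g * h), map_inv, tw_mul]
  have h1 : D.tw k e (ι g)⁻¹ (c g) = -c g⁻¹ := by
    have := congrArg (D.tw k e (ι g)⁻¹) (coc_inv D k hc g)
    rw [← tw_mul, inv_mul_cancel, tw_one, map_neg] at this
    rw [this, neg_neg]
  rw [h1, map_neg, sub_neg_eq_add]

/-- Conjugates of an element acting trivially. -/
theorem coc_conj_of_rb {c : G → Matrix (Fin 2) (Fin 2) k} (hc : c ∈ D.cocycles k e ι) (g h : G)
    (hh : D.rb (ι h) = 1) : c (g * h * g⁻¹) = D.tw k e (ι g) (c h) := by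
  rw [coc_conj D k hc, tw_of_rb D k e (σ := ι (g * h * g⁻¹)) (by simp [hh]), add_sub_cancel_left]

theorem mem_cobs_iff {c : G → Matrix (Fin 2) (Fin 2) k} :
    c ∈ D.cobs k e ι ↔ ∃ m, Matrix.trace m = 0 ∧ ∀ g, c g = D.tw k e (ι g) m - m := by
  constructor
  · rintro ⟨m, hm, rfl⟩
    exact ⟨m, hm, fun g => rfl⟩
  · rintro ⟨m, hm, h⟩
    exact ⟨m, hm, funext fun g => (h g).symm⟩

theorem levC_of_level {α : Type} (f : GL (Fin 2) (ZMod p) → α) :
    LevC ι fun g => f (D.rb (ι g)) := by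
  obtain ⟨L, hL, hl⟩ := D.level
  exact ⟨L, hL, fun g s hs => by
    show f (D.rb (ι (g * s))) = _
    rw [map_mul, map_mul, hl (ι s) ((IntermediateField.mem_fixingSubgroup_iff L _).1 hs), mul_one]⟩

theorem cobs_le_cocycles : D.cobs k e ι ≤ D.cocycles k e ι := by
  intro c hc
  obtain ⟨m, hm, h⟩ := (mem_cobs_iff D k).1 hc
  obtain rfl : c = fun g => twG p k e (D.rb (ι g)) m - m := funext h
  refine ⟨levC_of_level D fun x => twG p k e x m - m, fun g => ?_, fun a b => ?_⟩
  · rw [Matrix.trace_sub, ← tw_eq D, trace_tw D k e _ hm, hm, sub_zero]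
  · simp only [map_mul, twG_mul, tw_eq, map_sub]
    abel

end Cochain

theorem resAt_apply (V : ValuationSubring LL) (c : GG → Matrix (Fin 2) (Fin 2) k)
    (σ : V.decompositionSubgroup ℚ) : Datum.resAt k V c σ = c σ := rfl

theorem resAt_mem {e : ℕ} {c : GG → Matrix (Fin 2) (Fin 2) k}
    (hc : c ∈ D.cocycles k e (MonoidHom.id GG)) (V : ValuationSubring LL) :
    Datum.resAt k V c ∈ D.cocycles k e (V.decompositionSubgroup ℚ).subtype := by
  obtain ⟨⟨F, hF, hlev⟩, ht, hh⟩ := hc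
  exact ⟨⟨F, hF, fun g s hs => hlev g s hs⟩, fun g => ht g, fun g h => hh g h⟩

theorem om_of_rb {σ : GG} (h : D.rb σ = 1) : D.om σ = 1 := by
  simp [Datum.om, h]

end FLTAgent.Lowering.P1.Primes
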