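import Fermat.Agent.Lowering.P1.Primes.Frobenius

/-!
# A class which is not a coboundary is seen at auxiliary primes
-/

set_option autoImplicit false
set_option linter.unusedSectionVars false
set_option linter.style.haveILetI false

noncomputable section

open scoped Pointwise

namespace FLTAgent.Lowering.P1

local notation "LL" => AlgebraicClosure ℚ
local notation "GG" => (AlgebraicClosure ℚ ≃ₐ[ℚ] AlgebraicClosure ℚ)

namespace Primes

theorem aut_comm_root {m : ℕ} [NeZero m] {ζ : LL} (hζ : IsPrimitiveRoot ζ m) (a b : GG) :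
    a (b ζ) = b (a ζ) := by
  obtain ⟨i, -, hi⟩ := hζ.eq_pow_of_pow_eq_one
    (show b ζ ^ m = 1 by rw [← map_pow, hζ.pow_eq_one, map_one])
  obtain ⟨j, -, hj⟩ := hζ.eq_pow_of_pow_eq_one
    (show a ζ ^ m = 1 by rw [← map_pow, hζ.pow_eq_one, map_one])
  rw [← hi, map_pow, ← hj, map_pow, ← hi, ← pow_mul, ← pow_mul, mul_comm]

theorem commutator_root {m : ℕ} [NeZero m] {ζ : LL} (hζ : IsPrimitiveRoot ζ m) (a b : GG) :
    (a * b * a⁻¹ * b⁻¹ : GG) ζ = ζ := by
  show a (b ((a⁻¹ : GG) ((b⁻¹ : GG) ζ))) = ζ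
  rw [aut_comm_root hζ a⁻¹ b⁻¹]
  obtain ⟨i, -, hi⟩ := hζ.eq_pow_of_pow_eq_one
    (show (b⁻¹ : GG) ((a⁻¹ : GG) ζ) ^ m = 1 by simp [← map_pow, hζ.pow_eq_one])
  rw [← hi, map_pow, map_pow, aut_comm_root hζ a b, ← map_pow, ← map_pow, hi]
  show b (a ((b⁻¹ : GG) ((a⁻¹ : GG) ζ))) = ζ
  rw [aut_comm_root hζ b⁻¹ a⁻¹]
  show b (a ((a⁻¹ : GG) ((b⁻¹ : GG) ζ))) = ζ
  rw [show a ((a⁻¹ : GG) ((b⁻¹ : GG) ζ)) = (b⁻¹ : GG) ζ from a.apply_symm_apply _]
  exact b.apply_symm_apply _

variable {p : ℕ} [Fact p.Prime] (D : Datum p) (k : Type) [Field k] [Algebra (ZMod p) k]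

theorem diagHom_injective : Function.Injective (diagHom p) := fun x y h => by
  have h0 : (diagHom p x).val 0 0 = (diagHom p y).val 0 0 := by rw [h]
  have h1 : (diagHom p x).val 1 1 = (diagHom p y).val 1 1 := by rw [h]
  exact Prod.ext (Units.ext h0) (Units.ext h1)

theorem tw_diag_apply_zero {e : ℕ} {x : GG} {s : (ZMod p)ˣ}
    (hx : D.rb x = diagHom p (s, s⁻¹)) (A : Matrix (Fin 2) (Fin 2) k) :
    D.tw k e x A 0 0 = A 0 0 := by
  rw [tw_eq, hx, twG_diag, Units.mul_inv, one_pow, map_one, one_smul]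
  rfl

theorem coc_pow_zero {e : ℕ} {c : GG → Matrix (Fin 2) (Fin 2) k}
    (hc : c ∈ D.cocycles k e (MonoidHom.id GG)) {x : GG} {s : (ZMod p)ˣ}
    (hx : D.rb x = diagHom p (s, s⁻¹)) (n : ℕ) : c (x ^ n) 0 0 = n * c x 0 0 := by
  induction n with
  | zero => simp [coc_one D k hc]
  | succ n ih =>
    have h : D.rb (x ^ n) = diagHom p (s ^ n, (s ^ n)⁻¹) := by
      rw [map_pow, hx, ← map_pow, Prod.pow_mk, inv_pow]
    rw [pow_succ, hc.2.2, Matrix.add_apply, MonoidHom.id_apply, tw_diag_apply_zero D k h, ih,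
      Nat.cast_succ, add_one_mul]

end Primes

open Primes

theorem targetPrimes : TargetPrimes := by
  intro p _ D k _ _ _ e he S c hcO hnot n avoid
  have hc : c ∈ D.cocycles k e (MonoidHom.id GG) := hcO.1
  have hpr : p.Prime := Fact.out
  have hp3 := D.p_gt
  haveI : NeZero (p ^ (n + 1)) := ⟨pow_ne_zero _ hpr.ne_zero⟩
  haveI : CharP k p := charP_of_injective_algebraMap (algebraMap (ZMod p) k).injective p
  obtain ⟨ζ, hζ⟩ := HasEnoughRootsOfUnity.exists_primitiveRoot LL (p ^ (n + 1))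
  have hζp : IsPrimitiveRoot (ζ ^ p ^ n) p := hζ.pow (pow_pos hpr.pos _) (pow_succ p n)
  have hsec : ∀ g, ∃ σ, D.rb σ = g := D.surjective
  choose sec hsec using hsec
  -- a class killed by the kernel is a coboundary
  have key : ∃ h : GG, D.rb h = 1 ∧ h ζ = ζ ∧ c h ≠ 0 := by
    by_contra hH
    push Not at hH
    have hker : ∀ h : GG, D.rb h = 1 → c h = 0 := by
      intro h hh
      have hinv : ∀ g : GG, D.tw k e g (c h) = c h := fun g => by
        have h1 : D.rb (g * h * g⁻¹ * h⁻¹) = 1 := by simp [hh]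
        have h2 := hH _ h1 (commutator_root hζ g h)
        have h3 := coc_conj_of_rb D k hc g h hh
        rw [show g * h * g⁻¹ = g * h * g⁻¹ * h⁻¹ * h by group, hc.2.2, h2, zero_add,
          MonoidHom.id_apply, MonoidHom.id_apply, tw_of_rb D k e h1] at h3
        exact h3.symm
      refine eq_zero_of_invariant hp3 e (hc.2.1 h) ?_ ?_
      · have := hinv (sec (upperU p 1)); rwa [tw_eq, hsec] at this
      · have := hinv (sec (lowerU p)); rwa [tw_eq, hsec] at this
    have hfac : ∀ a b : GG, D.rb a = D.rb b → c a = c b := fun a b hab => by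
      have h1 := hker (b⁻¹ * a) (by rw [map_mul, map_inv, hab, inv_mul_cancel])
      rw [show a = b * (b⁻¹ * a) by group, hc.2.2, h1, map_zero, add_zero]
    obtain ⟨m, hm, hm'⟩ := cocycle_eq_bdy p k hp3 e he (fun g => c (sec g)) (fun g h => by
      rw [hfac (sec (g * h)) (sec g * sec h) (by rw [map_mul, hsec, hsec, hsec]), hc.2.2,
        MonoidHom.id_apply, tw_eq, hsec]) fun g => hc.2.1 _
    refine hnot ((mem_cobs_iff D k).2 ⟨m, hm, fun g => ?_⟩)
    rw [hfac g (sec (D.rb g)) (hsec _).symm, hm', tw_eq, MonoidHom.id_apply]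
  -- an element with two distinct eigenvalues seeing the class
  set two : (ZMod p)ˣ := Units.mk0 2 (two_ne_zero' hp3)
  obtain ⟨sw, hsw⟩ : ∃ W : GL (Fin 2) (ZMod p), (W : Matrix (Fin 2) (Fin 2) (ZMod p)) = !![0, 1; 1, 0] :=
    ⟨⟨!![0, 1; 1, 0], !![0, 1; 1, 0], by
      ext i j; fin_cases i <;> fin_cases j <;> simp [Matrix.mul_apply, Fin.sum_univ_two], by
      ext i j; fin_cases i <;> fin_cases j <;> simp [Matrix.mul_apply, Fin.sum_univ_two]⟩, rfl⟩
  set σ₀ : GG := sec (diagHom p (two, 1)) * sec sw * (sec (diagHom p (two, 1)))⁻¹ * (sec sw)⁻¹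
  have hσ₀ : D.rb σ₀ = diagHom p (two, two⁻¹) := by
    simp only [σ₀, map_mul, map_inv, hsec]
    rw [mul_inv_eq_iff_eq_mul, mul_inv_eq_iff_eq_mul]
    ext i j
    fin_cases i <;> fin_cases j <;>
      simp [diagHom, hsw, Matrix.mul_apply, Fin.sum_univ_two, -Units.val_inv_eq_inv_val,
        -ZMod.inv_coe_unit]
  have hσ₀ζ : σ₀ ζ = ζ := commutator_root hζ _ _
  obtain ⟨σ, hσ, hσζ, hσc⟩ : ∃ σ : GG, D.rb σ = diagHom p (two, two⁻¹) ∧ σ ζ = ζ ∧ c σ 0 0 ≠ 0 := by
    by_contra hH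
    push Not at hH
    obtain ⟨h, hh, hhζ, hh0⟩ := key
    have h00 : ∀ x : GG, D.rb x = 1 → x ζ = ζ → c x 0 0 = 0 := fun x hx hxζ => by
      have h1 := hH (σ₀ * x) (by rw [map_mul, hx, mul_one, hσ₀])
        (by rw [AlgEquiv.mul_apply, hxζ, hσ₀ζ])
      rw [hc.2.2, Matrix.add_apply, MonoidHom.id_apply, tw_diag_apply_zero D k hσ₀,
        hH σ₀ hσ₀ hσ₀ζ, zero_add] at h1
      exact h1
    have hconj : ∀ g : GG, D.tw k e g (c h) 0 0 = 0 := fun g => by
      have := h00 (g * h * g⁻¹) (by simp [hh]) (by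
        have h1 := commutator_root hζ g h
        rw [AlgEquiv.mul_apply, show (h⁻¹ : GG) ζ = ζ by conv_lhs => rw [← hhζ]; exact h.symm_apply_apply ζ] at h1
        exact h1)
      rwa [coc_conj_of_rb D k hc g h hh] at this
    have a1 := h00 h hh hhζ
    have a2 := hconj (sec (upperU p 1))
    have a3 := hconj (sec (lowerU p))
    rw [tw_eq, hsec, twG_upperU] at a2
    rw [tw_eq, hsec, twG_lowerU] at a3
    simp [a1] at a2 a3
    refine hh0 ?_
    have h11 := hc.2.1 h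
    rw [Matrix.trace_fin_two, a1, zero_add] at h11
    ext i j
    fin_cases i <;> fin_cases j <;> simp [a1, a2, a3, h11]
  -- the Frobenius element
  obtain ⟨F, hF, hlev⟩ := hc.1
  obtain ⟨L₀, hL₀, hlev₀⟩ := D.level
  haveI : FiniteDimensional ℚ (IntermediateField.adjoin ℚ ({ζ} : Set LL)) :=
    IntermediateField.adjoin.finiteDimensional
      ((AlgebraicClosure.isAlgebraic ℚ).isAlgebraic ζ).isIntegral
  set E := F ⊔ L₀ ⊔ IntermediateField.adjoin ℚ ({ζ} : Set LL)
  haveI : Normal ℚ LL := normal_iff.2 fun x =>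
    ⟨((AlgebraicClosure.isAlgebraic ℚ).isAlgebraic x).isIntegral, IsAlgClosed.splits _⟩
  set N := IntermediateField.normalClosure ℚ E LL
  haveI : FiniteDimensional ℚ N := normalClosure.is_finiteDimensional ℚ E LL
  haveI : Normal ℚ N := normalClosure.normal ℚ E LL
  have hEN : E ≤ N := IntermediateField.le_normalClosure E
  obtain ⟨q, V, τ, i, j, hq, hqS, hV, hτ, hj, hi⟩ :=
    exists_frobenius_zpowers N σ (avoid ∪ D.bad ∪ {p})
  simp only [Finset.mem_union, Finset.mem_singleton, not_or] at hqS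
  obtain ⟨⟨hqa, hqb⟩, hqp⟩ := hqS
  have hfixE : ∀ s ∈ N.fixingSubgroup, ∀ x ∈ E, s x = x := fun s hs x hx =>
    (IntermediateField.mem_fixingSubgroup_iff N s).1 hs x (hEN hx)
  have hsplit : ∀ a s : GG, a⁻¹ * s ∈ N.fixingSubgroup →
      D.rb s = D.rb a ∧ s ζ = a ζ ∧ c s = c a := by
    intro a s hs
    have h1 : D.rb (a⁻¹ * s) = 1 := hlev₀ _ fun x hx => hfixE _ hs x
      ((le_sup_right.trans le_sup_left : L₀ ≤ E) hx)
    have h2 : (a⁻¹ * s : GG) ζ = ζ := hfixE _ hs ζ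
      ((le_sup_right : IntermediateField.adjoin ℚ ({ζ} : Set LL) ≤ E)
        (IntermediateField.mem_adjoin_simple_self ℚ ζ))
    have h3 := hlev a (a⁻¹ * s) (IntermediateField.fixingSubgroup_antitone
      ((le_sup_left.trans le_sup_left).trans hEN) hs)
    refine ⟨?_, ?_, by rwa [mul_inv_cancel_left] at h3⟩
    · rw [show s = a * (a⁻¹ * s) by group, map_mul, h1, mul_one]
    · rw [show s = a * (a⁻¹ * s) by group, AlgEquiv.mul_apply, h2]
  obtain ⟨hτrb, hτζ, hτc⟩ := hsplit _ _ hj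
  obtain ⟨hσrb, -, hσc'⟩ := hsplit _ _ hi
  have hτdiag : D.rb τ = diagHom p (two ^ j, (two ^ j)⁻¹) := by
    rw [hτrb, map_pow, hσ, ← map_pow, Prod.pow_mk, inv_pow]
  have hα : (two ^ j) ^ 2 ≠ 1 := fun h => by
    rw [map_pow, hτdiag, hσ, ← map_pow] at hσrb
    have h1 := congrArg Prod.fst (diagHom_injective hσrb)
    simp only [Prod.pow_fst] at h1
    have h2 : two ^ 2 = 1 := by rw [h1, ← pow_mul, mul_comm, pow_mul, h, one_pow]
    have h3 := congrArg Units.val h2
    simp only [two, Units.val_pow_eq_pow_val, Units.val_mk0, Units.val_one] at h3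
    exact natCast_ne (k := k) hp3 1 4 (by norm_num) (by norm_num) (by
      have := congrArg (algebraMap (ZMod p) k) h3
      rw [map_pow, map_ofNat, map_one] at this
      push_cast
      linear_combination -this)
  have hτ00 : c τ 0 0 ≠ 0 := fun h0 => by
    refine hσc ?_
    rw [hσc', coc_pow_zero D k hc hτdiag, h0, mul_zero]
  have hτζ' : τ ζ = ζ := by
    rw [hτζ]
    clear hj hτrb hτc hτdiag hα hτζ
    induction j with
    | zero => rfl
    | succ j ih => rw [pow_succ, AlgEquiv.mul_apply, hσζ, ih]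
  have hdvd : p ^ (n + 1) ∣ q - 1 := dvd_sub_one_of_fix hq hV
    (fun h => hqp ((Nat.prime_dvd_prime_iff_eq hq hpr).1 (hq.dvd_of_dvd_pow h))) hζ hτ hτζ'
  refine ⟨q, hqa, ⟨hq, hqb, (dvd_pow_self p n.succ_ne_zero).trans hdvd,
    (pow_dvd_pow p n.le_succ).trans hdvd, ((two ^ j : (ZMod p)ˣ) : ZMod p), ?_, ?_⟩, ?_⟩
  · exact fun h => hα (Units.ext (by simpa using h))
  · intro W hW σ' hσ'
    obtain ⟨g, hg⟩ := exists_conj_of_frobenius D.rb hq (fun W hW => D.unramified q hq hqb W hW)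
      hV hW hτ hσ'
    rw [hg, hτdiag, Units.val_mul, Units.val_mul, Matrix.trace_mul_comm, ← mul_assoc,
      ← Units.val_mul, inv_mul_cancel, Units.val_one, one_mul, Matrix.trace_fin_two]
    show ((two ^ j : (ZMod p)ˣ) : ZMod p) ^ 2 - (((two ^ j : (ZMod p)ˣ) : ZMod p) +
      (((two ^ j)⁻¹ : (ZMod p)ˣ) : ZMod p)) * _ + 1 = 0
    linear_combination -(Units.inv_mul (two ^ j))
  · intro W hW hcob
    obtain ⟨g, rfl⟩ := Places.exists_smul_eq hq hV hW
    obtain ⟨m, -, hm⟩ := (mem_cobs_iff D k).1 hcob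
    have hD : g * τ * g⁻¹ ∈ (g • V).decompositionSubgroup ℚ :=
      (Frobenius.isFrobeniusAt_conj V (γ := g) hτ).mem_decompositionSubgroup
    have h1 : c (g * τ * g⁻¹) = D.tw k e (g * τ * g⁻¹) m - m := hm ⟨_, hD⟩
    rw [coc_conj D k hc] at h1
    set A := D.tw k e g⁻¹ (m + c g)
    have h2 : D.tw k e g (c τ) = D.tw k e g (D.tw k e τ A - A) := by
      simp only [A, map_sub, ← tw_mul, mul_inv_cancel, tw_one, ← mul_assoc,
        map_add]
      simp only [MonoidHom.id_apply] at h1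
      linear_combination (norm := abel) h1
    have h3 := congrArg (D.tw k e g⁻¹) h2
    rw [← tw_mul, ← tw_mul, inv_mul_cancel, tw_one, tw_one] at h3
    refine hτ00 ?_
    rw [h3, Matrix.sub_apply, tw_diag_apply_zero D k hτdiag, sub_self]

end FLTAgent.Lowering.P1
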