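import Fermat.Agent.Lowering.P1.Primes.Basic
import Fermat.Agent.Frobenius.Density
import Fermat.Agent.Kronecker.Congruence

/-!
# Frobenius elements in a prescribed division
-/

set_option autoImplicit false
set_option linter.unusedSectionVars false
set_option linter.style.haveILetI false

noncomputable section

open NumberField
open scoped Pointwise

namespace FLTAgent.Lowering.P1.Primes

local notation "LL" => AlgebraicClosure ℚ
local notation "GG" => (AlgebraicClosure ℚ ≃ₐ[ℚ] AlgebraicClosure ℚ)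

open FLTAgent.Frobenius

local instance (priority := 900) algebraicLL : Algebra.IsAlgebraic ℚ LL :=
  AlgebraicClosure.isAlgebraic ℚ

local instance (priority := 900) algClosureLL : IsAlgClosure ℚ LL := ⟨inferInstance, inferInstance⟩

local instance (priority := 900) normalLL : Normal ℚ LL := IsAlgClosure.normal ℚ _

/-- Two Frobenius elements at the same place differ by an element of inertia. -/
theorem inv_mul_mem_inertia {q : ℕ} {V : ValuationSubring LL} {σ τ : GG}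
    (hσ : V.IsFrobeniusAt σ q) (hτ : V.IsFrobeniusAt τ q) :
    σ⁻¹ * τ ∈ V.inertiaSubgroupIn ℚ := by
  have hσD := hσ.mem_decompositionSubgroup
  have hτD := hτ.mem_decompositionSubgroup
  obtain ⟨hσV, h1⟩ := (isFrobeniusAt_iff V σ q).1 hσ
  obtain ⟨-, h2⟩ := (isFrobeniusAt_iff V τ q).1 hτ
  refine (Places.mem_inertia_iff V).2 ⟨mul_mem (inv_mem hσD) hτD, fun x hx => ?_⟩
  have h3 : τ x - σ x ∈ V.nonunits := by
    have := V.nonunits.toAddSubgroup.sub_mem (h2 x hx) (h1 x hx)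
    simpa using this
  have h4 := smul_nonunits V (γ := σ⁻¹) h3
  rw [inv_smul_eq_iff.2 hσV.symm, map_sub,
    show σ⁻¹ (σ x) = x from σ.symm_apply_apply x] at h4
  exact h4

/-- The values of a representation unramified at `q` on Frobenius elements are conjugate. -/
theorem exists_conj_of_frobenius {G : Type} [Group G] (f : GG →* G) {q : ℕ} (hq : q.Prime)
    (hun : ∀ W : ValuationSubring LL, W.LiesOverPrime q → ∀ σ ∈ W.inertiaSubgroupIn ℚ, f σ = 1)
    {V W : ValuationSubring LL} (hV : V.LiesOverPrime q) (hW : W.LiesOverPrime q) {σ τ : GG}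
    (hσ : V.IsFrobeniusAt σ q) (hτ : W.IsFrobeniusAt τ q) :
    ∃ g : GG, f τ = f g * f σ * (f g)⁻¹ := by
  obtain ⟨g, rfl⟩ := Places.exists_smul_eq hq hV hW
  refine ⟨g, ?_⟩
  have h := hun _ hW _ (inv_mul_mem_inertia (isFrobeniusAt_conj V (γ := g) hσ) hτ)
  rw [map_mul, map_inv, inv_mul_eq_one, map_mul, map_mul, map_inv] at h
  exact h.symm

/-- A Frobenius element generating, on a given number field, the same subgroup as a conjugate of a
given automorphism. -/
theorem exists_frobenius_zpowers (L : IntermediateField ℚ LL) [FiniteDimensional ℚ L] [Normal ℚ L]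
    (σ : GG) (S : Finset ℕ) :
    ∃ (q : ℕ) (V : ValuationSubring LL) (τ : GG) (i j : ℕ),
      q.Prime ∧ q ∉ S ∧ V.LiesOverPrime q ∧ V.IsFrobeniusAt τ q ∧
        (σ ^ j)⁻¹ * τ ∈ L.fixingSubgroup ∧ (τ ^ i)⁻¹ * σ ∈ L.fixingSubgroup := by
  haveI : IsGalois ℚ L := {}
  haveI : NumberField L := NumberField.mk
  let res : GG →* (L ≃ₐ[ℚ] L) := AlgEquiv.restrictNormalHom L
  have hres : ∀ (g : GG) (x : L), ((res g x : L) : LL) = g (x : LL) :=
    fun g x => AlgEquiv.restrictNormal_commutes g L x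
  obtain ⟨q, hq, hqS, hun, Q, φ, hQ, hqQ, hφ, x, hx⟩ := exists_frobenius_sameDivision (res σ) S
  obtain ⟨V₀, hV₀⟩ := exists_liesOverPrime q hq
  obtain ⟨τ₀, hτ₀⟩ := exists_isFrobeniusAt V₀ q hq hV₀
  let ιL : 𝓞 L →+* integralClosure ℤ LL :=
    RingHom.codRestrict ((algebraMap L LL).comp (algebraMap (𝓞 L) L))
      (integralClosure ℤ LL).toSubring
      (fun b => (RingOfIntegers.isIntegral_coe b).map (IsScalarTower.toAlgHom ℤ L LL))
  let Q₀ : Ideal (𝓞 L) := (centre V₀).comap ιL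
  have hQ₀ : Q₀.IsPrime := Ideal.IsPrime.comap _
  have hqQ₀ : (q : 𝓞 L) ∈ Q₀ := by
    rw [Ideal.mem_comap, map_natCast, mem_centre_iff]
    simpa [ValuationSubring.LiesOverPrime] using hV₀
  have hφ₀ : IsFrobMod q (res τ₀) Q₀ := by
    intro b
    rw [Ideal.mem_comap, mem_centre_iff]
    have h := ((isFrobeniusAt_iff V₀ τ₀ q).mp hτ₀).2 _ (integralClosure_le V₀ (ιL b))
    show (((ιL (res τ₀ • b - b ^ q)) : integralClosure ℤ LL) : LL) ∈ V₀.nonunits
    rw [map_sub, map_pow]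
    have h2 : ((ιL (res τ₀ • b) : integralClosure ℤ LL) : LL) = τ₀ (ιL b : LL) := hres τ₀ (b : L)
    push_cast
    rw [h2]
    exact h
  obtain ⟨g, hg⟩ := exists_smul_eq_of_mem hq hQ₀ hqQ₀ hQ hqQ
  obtain ⟨γ, hγ⟩ := AlgEquiv.restrictNormalHom_surjective LL (F := ℚ) (K₁ := L) g
  obtain ⟨δ, hδ⟩ := AlgEquiv.restrictNormalHom_surjective LL (F := ℚ) (K₁ := L) x
  have hγ' : res γ = g := hγ
  have hδ' : res δ = x := hδ
  have hφeq : res (γ * τ₀ * γ⁻¹) = φ := by
    rw [map_mul, map_mul, map_inv, hγ']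
    exact IsFrobMod.unique hq hun hQ hqQ (hg ▸ hφ₀.conj g) hφ
  set τ := δ * (γ * τ₀ * γ⁻¹) * δ⁻¹
  have hτ : res τ = x * φ * x⁻¹ := by
    rw [map_mul, map_mul res δ, map_inv res δ, hφeq, hδ']
  have hker : ∀ a b : GG, res a = res b → a⁻¹ * b ∈ L.fixingSubgroup := fun a b h => by
    rw [IntermediateField.mem_fixingSubgroup_iff]
    intro y hy
    have h1 : res (a⁻¹ * b) = 1 := by rw [map_mul, map_inv, h, inv_mul_cancel]
    have h2 := congrArg (fun e : L ≃ₐ[ℚ] L => ((e ⟨y, hy⟩ : L) : LL)) h1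
    simp only [hres] at h2
    exact h2
  have h1 : res σ ∈ Subgroup.zpowers (res τ) := by rw [hτ, hx]; exact Subgroup.mem_zpowers _
  have h2 : res τ ∈ Subgroup.zpowers (res σ) := by rw [hτ, ← hx]; exact Subgroup.mem_zpowers _
  rw [← mem_powers_iff_mem_zpowers, Submonoid.mem_powers_iff] at h1 h2
  obtain ⟨i, hi⟩ := h1
  obtain ⟨j, hj⟩ := h2
  exact ⟨q, δ • γ • V₀, τ, i, j, hq, hqS, liesOverPrime_smul _ (liesOverPrime_smul V₀ hV₀),
    isFrobeniusAt_conj _ (isFrobeniusAt_conj V₀ hτ₀), hker _ _ (by rw [map_pow, hj]),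
    hker _ _ (by rw [map_pow, hi])⟩

/-- A Frobenius element fixing the roots of unity of order `m` forces `q ≡ 1` modulo `m`. -/
theorem dvd_sub_one_of_fix {q m : ℕ} (hq : q.Prime) {V : ValuationSubring LL}
    (hV : V.LiesOverPrime q) (hqm : ¬ q ∣ m) {ζ : LL} (hζ : IsPrimitiveRoot ζ m) {τ : GG}
    (hτ : V.IsFrobeniusAt τ q) (hfix : τ ζ = ζ) : m ∣ q - 1 := by
  have hm : m ≠ 0 := fun h => hqm (h ▸ dvd_zero q)
  have hζ0 : ζ ≠ 0 := hζ.ne_zero hm
  have hζV : ζ ∈ V := Kronecker.mem_of_pow_eq_one V hm hζ.pow_eq_one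
  have hinv : ζ⁻¹ ∈ V :=
    Kronecker.mem_of_pow_eq_one V hm (by rw [inv_pow, hζ.pow_eq_one, inv_one])
  have h := ((isFrobeniusAt_iff V τ q).1 hτ).2 ζ hζV
  rw [hfix] at h
  have h1 : ζ ^ (q - 1) - 1 ∈ V.nonunits := by
    have e : ζ ^ (q - 1) - 1 = (ζ - ζ ^ q) * (-ζ⁻¹) := by
      rw [show ζ ^ q = ζ ^ (q - 1) * ζ by rw [← pow_succ, Nat.sub_add_cancel hq.one_le]]
      field_simp
      ring
    rw [e, ← SetLike.mem_coe, ← ValuationSubring.image_maximalIdeal] at *
    obtain ⟨u, hu, hu'⟩ := h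
    exact ⟨u * ⟨_, neg_mem hinv⟩, Ideal.mul_mem_right _ _ hu, by rw [← hu']; rfl⟩
  exact hζ.dvd_of_pow_eq_one _ (Reducible.eq_one_of_sub_one_mem_nonunits
    (by rw [← pow_mul, mul_comm, pow_mul, hζ.pow_eq_one, one_pow])
    (Reducible.natCast_notMem_nonunits hq hV hqm) h1)

end FLTAgent.Lowering.P1.Primes
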