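import Fermat.Agent.Lowering.P1.Interface

/-!
# The adjoint representation of `GL₂(𝔽_p)` has no cohomology

Averaging over the diagonal torus and a computation on the unipotent matrices show that every
cocycle is trivial on a subgroup of index prime to `p`, hence is a coboundary.
-/

set_option autoImplicit false
set_option linter.unusedSectionVars false
set_option linter.style.haveILetI false

noncomputable section

namespace FLTAgent.Lowering.P1.Primes

/-- A cocycle which vanishes on a subgroup of invertible index is a coboundary, of an element of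
any submodule containing its values. -/
theorem exists_bdy_of_vanishes {G : Type} [Group G] [Finite G] {k : Type} [Field k] {M : Type}
    [AddCommGroup M] [Module k M] (ρ : G → M →ₗ[k] M) (c : G → M)
    (hc : ∀ g h, c (g * h) = c g + ρ g (c h)) (W : Subgroup G) (hW : ∀ w ∈ W, c w = 0)
    (hidx : (W.index : k) ≠ 0) (N : Submodule k M) (hN : ∀ g, c g ∈ N) :
    ∃ m ∈ N, ∀ g, c g = ρ g m - m := by
  classical
  letI := Fintype.ofFinite (G ⧸ W)
  let F : G ⧸ W → M := fun x => Quotient.liftOn' x c fun a b hab => by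
    rw [QuotientGroup.leftRel_apply] at hab
    have h := hc a (a⁻¹ * b)
    rw [mul_inv_cancel_left, hW _ hab, map_zero, add_zero] at h
    exact h.symm
  set s : M := ∑ x, F x with hs
  refine ⟨-((W.index : k)⁻¹ • s), N.neg_mem (N.smul_mem _ (N.sum_mem fun x _ => ?_)), fun g => ?_⟩
  · induction x using QuotientGroup.induction_on with
    | H a => exact hN a
  · have key : s = (W.index : k) • c g + ρ g s := by
      calc s = ∑ x : G ⧸ W, F (g • x) := (Equiv.sum_comp (MulAction.toPerm g) F).symm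
        _ = ∑ x : G ⧸ W, (c g + ρ g (F x)) := Finset.sum_congr rfl fun x _ => by
            induction x using QuotientGroup.induction_on with
            | H a => exact hc g a
        _ = _ := by
            rw [Finset.sum_add_distrib, ← map_sum, Finset.sum_const, Finset.card_univ,
              ← Nat.card_eq_fintype_card, ← Subgroup.index, Nat.cast_smul_eq_nsmul]
    calc c g = (W.index : k)⁻¹ • ((W.index : k) • c g) := (inv_smul_smul₀ hidx _).symm
      _ = (W.index : k)⁻¹ • (s - ρ g s) := by rw [eq_sub_of_add_eq key.symm]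
      _ = _ := by rw [map_neg, map_smul, smul_sub]; abel

variable (p : ℕ) [Fact p.Prime] (k : Type) [Field k] [Algebra (ZMod p) k]

/-- The twisted adjoint action of a matrix. -/
def twG (e : ℕ) (g : GL (Fin 2) (ZMod p)) :
    Matrix (Fin 2) (Fin 2) k →ₗ[k] Matrix (Fin 2) (Fin 2) k :=
  algebraMap (ZMod p) k (Matrix.det (g : Matrix (Fin 2) (Fin 2) (ZMod p)) ^ e) •
    (LinearMap.mulLeft k ((Matrix.GeneralLinearGroup.map (algebraMap (ZMod p) k) g :
        GL (Fin 2) k) : Matrix (Fin 2) (Fin 2) k) ∘ₗ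
      LinearMap.mulRight k (((Matrix.GeneralLinearGroup.map (algebraMap (ZMod p) k) g)⁻¹ :
        GL (Fin 2) k) : Matrix (Fin 2) (Fin 2) k))

theorem twG_apply (e : ℕ) (g : GL (Fin 2) (ZMod p)) (A : Matrix (Fin 2) (Fin 2) k) :
    twG p k e g A = algebraMap (ZMod p) k (Matrix.det (g : Matrix (Fin 2) (Fin 2) (ZMod p)) ^ e) •
      ((Matrix.GeneralLinearGroup.map (algebraMap (ZMod p) k) g : Matrix (Fin 2) (Fin 2) k) * (A *
        (Matrix.GeneralLinearGroup.map (algebraMap (ZMod p) k) g⁻¹ :
          Matrix (Fin 2) (Fin 2) k))) := by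
  rw [map_inv]
  rfl

theorem twG_one (e : ℕ) (A : Matrix (Fin 2) (Fin 2) k) : twG p k e 1 A = A := by
  simp [twG_apply]

theorem twG_mul (e : ℕ) (g h : GL (Fin 2) (ZMod p)) (A : Matrix (Fin 2) (Fin 2) k) :
    twG p k e (g * h) A = twG p k e g (twG p k e h A) := by
  simp only [twG_apply, mul_inv_rev, map_mul, Units.val_mul, Matrix.det_mul, mul_pow,
    mul_smul_comm, smul_mul_assoc, smul_smul, mul_assoc]

/-- The upper unipotent matrices. -/
def upperU (a : ZMod p) : GL (Fin 2) (ZMod p) where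
  val := !![1, a; 0, 1]
  inv := !![1, -a; 0, 1]
  val_inv := by ext i j; fin_cases i <;> fin_cases j <;> simp [Matrix.mul_apply, Fin.sum_univ_two]
  inv_val := by ext i j; fin_cases i <;> fin_cases j <;> simp [Matrix.mul_apply, Fin.sum_univ_two]

/-- The lower unipotent matrix. -/
def lowerU : GL (Fin 2) (ZMod p) where
  val := !![1, 0; 1, 1]
  inv := !![1, 0; -1, 1]
  val_inv := by ext i j; fin_cases i <;> fin_cases j <;> simp [Matrix.mul_apply, Fin.sum_univ_two]
  inv_val := by ext i j; fin_cases i <;> fin_cases j <;> simp [Matrix.mul_apply, Fin.sum_univ_two]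

/-- The diagonal matrices. -/
def diagHom : (ZMod p)ˣ × (ZMod p)ˣ →* GL (Fin 2) (ZMod p) where
  toFun st :=
    { val := !![(st.1 : ZMod p), 0; 0, (st.2 : ZMod p)]
      inv := !![((st.1⁻¹ : (ZMod p)ˣ) : ZMod p), 0; 0, ((st.2⁻¹ : (ZMod p)ˣ) : ZMod p)]
      val_inv := by
        ext i j; fin_cases i <;> fin_cases j <;>
          simp [Matrix.mul_apply, Fin.sum_univ_two, -Units.val_inv_eq_inv_val, -ZMod.inv_coe_unit]
      inv_val := by
        ext i j; fin_cases i <;> fin_cases j <;> simp [Matrix.mul_apply, Fin.sum_univ_two, -Units.val_inv_eq_inv_val, -ZMod.inv_coe_unit] }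
  map_one' := by ext i j; fin_cases i <;> fin_cases j <;> rfl
  map_mul' x y := by
    ext i j; fin_cases i <;> fin_cases j <;>
      simp [Matrix.mul_apply, Fin.sum_univ_two, -Units.val_inv_eq_inv_val, -ZMod.inv_coe_unit]

theorem upperU_add (a b : ZMod p) : upperU p (a + b) = upperU p a * upperU p b := by
  ext i j
  fin_cases i <;> fin_cases j <;>
    simp [upperU, Matrix.mul_apply, Fin.sum_univ_two, add_comm]

theorem upperU_injective : Function.Injective (upperU p) := fun a b h => by
  have h' : (upperU p a).val 0 1 = (upperU p b).val 0 1 := by rw [h]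
  simpa [upperU] using h'

theorem diag_conj (s t : (ZMod p)ˣ) (a : ZMod p) :
    diagHom p (s, t) * upperU p a =
      upperU p ((s : ZMod p) * a * ((t⁻¹ : (ZMod p)ˣ) : ZMod p)) * diagHom p (s, t) := by
  ext i j
  fin_cases i <;> fin_cases j <;>
    simp [upperU, diagHom, Matrix.mul_apply, Fin.sum_univ_two, mul_assoc, -Units.val_inv_eq_inv_val, -ZMod.inv_coe_unit]

theorem det_upperU (a : ZMod p) :
    Matrix.det (upperU p a : Matrix (Fin 2) (Fin 2) (ZMod p)) = 1 := by
  simp [upperU, Matrix.det_fin_two]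

theorem det_lowerU : Matrix.det (lowerU p : Matrix (Fin 2) (Fin 2) (ZMod p)) = 1 := by
  simp [lowerU, Matrix.det_fin_two]

theorem det_diag (s t : (ZMod p)ˣ) :
    Matrix.det (diagHom p (s, t) : Matrix (Fin 2) (Fin 2) (ZMod p)) = s * t := by
  simp [diagHom, Matrix.det_fin_two, -Units.val_inv_eq_inv_val, -ZMod.inv_coe_unit]

/-- The adjoint action of a unipotent matrix. -/
theorem twG_upperU (e : ℕ) (a : ZMod p) (A : Matrix (Fin 2) (Fin 2) k) :
    twG p k e (upperU p a) A =
      !![A 0 0 + algebraMap (ZMod p) k a * A 1 0,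
        A 0 1 + algebraMap (ZMod p) k a * (A 1 1 - A 0 0) - algebraMap (ZMod p) k a ^ 2 * A 1 0;
        A 1 0, A 1 1 - algebraMap (ZMod p) k a * A 1 0] := by
  rw [twG_apply, det_upperU, one_pow, map_one, one_smul]
  ext i j
  fin_cases i <;> fin_cases j <;>
    simp [upperU, Matrix.mul_apply, Fin.sum_univ_two] <;> ring

/-- The adjoint action of the lower unipotent matrix. -/
theorem twG_lowerU (e : ℕ) (A : Matrix (Fin 2) (Fin 2) k) :
    twG p k e (lowerU p) A =
      !![A 0 0 - A 0 1, A 0 1; A 1 0 + A 0 0 - A 1 1 - A 0 1, A 1 1 + A 0 1] := by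
  rw [twG_apply, det_lowerU, one_pow, map_one, one_smul]
  ext i j
  fin_cases i <;> fin_cases j <;>
    simp [lowerU, Matrix.mul_apply, Fin.sum_univ_two] <;> ring

/-- The adjoint action of a diagonal matrix. -/
theorem twG_diag (e : ℕ) (s t : (ZMod p)ˣ) (A : Matrix (Fin 2) (Fin 2) k) :
    twG p k e (diagHom p (s, t)) A =
      algebraMap (ZMod p) k (((s : ZMod p) * t) ^ e) •
        !![A 0 0, algebraMap (ZMod p) k ((s : ZMod p) * ((t⁻¹ : (ZMod p)ˣ) : ZMod p)) * A 0 1;
          algebraMap (ZMod p) k ((t : ZMod p) * ((s⁻¹ : (ZMod p)ˣ) : ZMod p)) * A 1 0, A 1 1] := by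
  rw [twG_apply, det_diag]
  congr 1
  have hs : algebraMap (ZMod p) k ((s⁻¹ : (ZMod p)ˣ) : ZMod p) =
      (algebraMap (ZMod p) k (s : ZMod p))⁻¹ := by rw [Units.val_inv_eq_inv_val, map_inv₀]
  have ht : algebraMap (ZMod p) k ((t⁻¹ : (ZMod p)ˣ) : ZMod p) =
      (algebraMap (ZMod p) k (t : ZMod p))⁻¹ := by rw [Units.val_inv_eq_inv_val, map_inv₀]
  have hs0 : algebraMap (ZMod p) k (s : ZMod p) ≠ 0 := (map_ne_zero _).2 s.ne_zero
  have ht0 : algebraMap (ZMod p) k (t : ZMod p) ≠ 0 := (map_ne_zero _).2 t.ne_zero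
  ext i j
  fin_cases i <;> fin_cases j <;>
    simp only [Matrix.mul_apply, Fin.sum_univ_two] <;>
    simp [diagHom, hs, ht, -Units.val_inv_eq_inv_val, -ZMod.inv_coe_unit] <;> field_simp

variable {p k}

theorem two_ne_zero' (hp : 3 < p) : (2 : ZMod p) ≠ 0 := fun h => by
  have h2 : ((2 : ℕ) : ZMod p) = 0 := by exact_mod_cast h
  rw [CharP.cast_eq_zero_iff (ZMod p) p] at h2
  exact absurd (Nat.le_of_dvd (by norm_num) h2) (by omega)

theorem natCast_ne (hp : 3 < p) (a b : ℕ) (hab : a < b) (hb : b ≤ a + 4) :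
    (a : k) ≠ (b : k) := by
  intro h
  have h0 : ((b - a : ℕ) : k) = 0 := by rw [Nat.cast_sub hab.le, h, sub_self]
  rw [← map_natCast (algebraMap (ZMod p) k)] at h0
  rw [map_eq_zero, CharP.cast_eq_zero_iff (ZMod p) p] at h0
  obtain ⟨c, hc⟩ := h0
  have hc0 : c ≠ 0 := fun h0 => by rw [h0, mul_zero] at hc; omega
  have h4 : b - a ≤ 4 := by omega
  have hp5 : p ≠ 4 := fun h4 => by have := (Fact.out : p.Prime); rw [h4] at this; norm_num at this
  have : p ≤ b - a := by rw [hc]; exact Nat.le_mul_of_pos_right p (Nat.pos_of_ne_zero hc0)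
  omega

/-- There is no invariant trace zero matrix. -/
theorem eq_zero_of_invariant (hp : 3 < p) (e : ℕ) {A : Matrix (Fin 2) (Fin 2) k}
    (htr : Matrix.trace A = 0) (hu : twG p k e (upperU p 1) A = A)
    (hl : twG p k e (lowerU p) A = A) : A = 0 := by
  rw [twG_upperU] at hu
  rw [twG_lowerU] at hl
  have h2 : (2 : k) ≠ 0 := by
    have := natCast_ne (k := k) hp 0 2 (by norm_num) (by norm_num)
    simpa using this.symm
  have a1 := congrFun (congrFun hu 0) 0
  have a2 := congrFun (congrFun hu 0) 1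
  have a3 := congrFun (congrFun hl 0) 0
  simp at a1 a2 a3
  rw [Matrix.trace_fin_two] at htr
  have h10 : A 1 0 = 0 := a1
  have h01 : A 0 1 = 0 := a3
  have h00 : A 0 0 = 0 := by
    have : (2 : k) * A 0 0 = 0 := by linear_combination -a2 + htr - h10
    exact (mul_eq_zero.1 this).resolve_left h2
  ext i j
  fin_cases i <;> fin_cases j <;> simp [h10, h01, h00]
  linear_combination htr - h00

variable (p k)

/-- Every cocycle of `GL₂(𝔽_p)` with values in the adjoint representation is a coboundary. -/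
theorem cocycle_eq_bdy (hp : 3 < p) (e : ℕ) (he : e ≤ 1)
    (c : GL (Fin 2) (ZMod p) → Matrix (Fin 2) (Fin 2) k)
    (hc : ∀ g h, c (g * h) = c g + twG p k e g (c h)) (htr : ∀ g, Matrix.trace (c g) = 0) :
    ∃ m, Matrix.trace m = 0 ∧ ∀ g, c g = twG p k e g m - m := by
  haveI : CharP k p := charP_of_injective_algebraMap (algebraMap (ZMod p) k).injective p
  have hpr : p.Prime := Fact.out
  let N : Submodule k (Matrix (Fin 2) (Fin 2) k) := LinearMap.ker (Matrix.traceLinearMap (Fin 2) k k)
  -- the torus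
  have hcard : (((⊥ : Subgroup ((ZMod p)ˣ × (ZMod p)ˣ)).index : ℕ) : k) ≠ 0 := by
    rw [Subgroup.index_bot, Nat.card_prod, Nat.card_eq_fintype_card, ZMod.card_units, Nat.cast_mul,
      Nat.cast_sub hpr.one_le, CharP.cast_eq_zero]
    simp
  obtain ⟨m₀, hm₀, hm₀'⟩ := exists_bdy_of_vanishes (fun x => twG p k e (diagHom p x))
    (fun x => c (diagHom p x)) (fun x y => by simp only [map_mul]; exact hc _ _) ⊥
    (fun w hw => by
      rw [Subgroup.mem_bot] at hw
      subst hw
      have h := hc (diagHom p 1) (diagHom p 1)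
      rw [← map_mul, one_mul, map_one, twG_one] at h
      simpa using h) hcard N fun x => htr _
  replace hm₀ : Matrix.trace m₀ = 0 := hm₀
  have htw : ∀ (g : GL (Fin 2) (ZMod p)) (A : Matrix (Fin 2) (Fin 2) k), Matrix.trace A = 0 →
      Matrix.trace (twG p k e g A) = 0 := fun g A hA => by
    rw [twG_apply, Matrix.trace_smul, Matrix.trace_mul_comm, mul_assoc, ← Units.val_mul, ← map_mul,
      inv_mul_cancel, map_one, Units.val_one, mul_one, hA, smul_zero]
  have hbdy : ∀ (m : Matrix (Fin 2) (Fin 2) k) (g h : GL (Fin 2) (ZMod p)),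
      twG p k e (g * h) m - m = (twG p k e g m - m) + twG p k e g (twG p k e h m - m) := fun m g h => by
    rw [twG_mul, map_sub]; abel
  set c₁ : GL (Fin 2) (ZMod p) → Matrix (Fin 2) (Fin 2) k := fun g => c g - (twG p k e g m₀ - m₀)
  have hc₁ : ∀ g h, c₁ (g * h) = c₁ g + twG p k e g (c₁ h) := fun g h => by
    simp only [c₁]; rw [hc, hbdy]; simp only [map_sub]; abel
  have htr₁ : ∀ g, Matrix.trace (c₁ g) = 0 := fun g => by
    simp [c₁, Matrix.trace_sub, htr, htw g m₀ hm₀, hm₀]
  have hdiag : ∀ x, c₁ (diagHom p x) = 0 := fun x => by simp [c₁, hm₀' x]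
  -- the unipotent matrices
  set f : ZMod p → Matrix (Fin 2) (Fin 2) k := fun a => c₁ (upperU p a)
  have hf : ∀ a b, f (a + b) = f a + twG p k e (upperU p a) (f b) := fun a b => by
    simp only [f]; rw [upperU_add, hc₁]
  have hconj : ∀ (s t : (ZMod p)ˣ) (a : ZMod p),
      f ((s : ZMod p) * a * ((t⁻¹ : (ZMod p)ˣ) : ZMod p)) = twG p k e (diagHom p (s, t)) (f a) := by
    intro s t a
    have h := congrArg c₁ (diag_conj p s t a)
    rw [hc₁, hc₁, hdiag, map_zero, add_zero, zero_add] at h
    exact h.symm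
  have hadd : ∀ φ : Matrix (Fin 2) (Fin 2) k → k,
      (∀ a b, φ (f (a + b)) = φ (f a) + φ (f b)) →
      ∀ a : ZMod p, φ (f a) = algebraMap (ZMod p) k a * φ (f 1) := by
    intro φ hφ a
    have h0 : φ (f 0) = 0 := by simpa using hφ 0 0
    rw [← ZMod.natCast_zmod_val a]
    induction a.val with
    | zero => simp [h0]
    | succ n ih => rw [Nat.cast_succ, hφ, ih, map_add, map_one, add_mul, one_mul]
  set two : (ZMod p)ˣ := Units.mk0 2 (two_ne_zero' hp)
  have h2k : (2 : k) ≠ 0 := by
    have := natCast_ne (k := k) hp 0 2 (by norm_num) (by norm_num)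
    simpa using this.symm
  have hhalf : (2 : k)⁻¹ * 2 = 1 := inv_mul_cancel₀ h2k
  have he' : e = 0 ∨ e = 1 := by omega
  have hz : ∀ a, f a 1 0 = 0 := by
    have hz' := hadd (fun A => A 1 0) fun a b => by
      show f (a + b) 1 0 = f a 1 0 + f b 1 0
      rw [hf, Matrix.add_apply, twG_upperU]; simp
    have h1 : f (2 * 1) 1 0 = twG p k e (diagHom p (two, 1)) (f 1) 1 0 := by
      have := congrFun (congrFun (hconj two 1 1) 1) 0
      simpa [two] using this
    rw [mul_one] at h1
    rw [hz', twG_diag] at h1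
    have h1' : f 1 1 0 * ((2 : k) * 2) = f 1 1 0 * (2 : k) ^ e := by
      simp [two, map_ofNat, map_pow] at h1
      linear_combination (2 : k) * h1 + (2 : k) ^ e * f 1 1 0 * hhalf
    have hne : (2 : k) * 2 ≠ 2 ^ e := by
      rcases he' with rfl | rfl
      · intro h; exact natCast_ne (k := k) hp 1 4 (by norm_num) (by norm_num) (by push_cast; linear_combination -h)
      · intro h; exact natCast_ne (k := k) hp 2 4 (by norm_num) (by norm_num) (by push_cast; linear_combination -h)
    have h10 : f 1 1 0 = 0 := by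
      by_contra h0
      exact hne (mul_left_cancel₀ h0 h1')
    intro a
    rw [hz', h10, mul_zero]
  have hy : ∀ a, f a 0 0 = 0 := by
    have hy' := hadd (fun A => A 0 0) fun a b => by
      show f (a + b) 0 0 = f a 0 0 + f b 0 0
      rw [hf, Matrix.add_apply, twG_upperU]; simp [hz]
    have h1 := congrFun (congrFun (hconj 1 two 1) 0) 0
    rw [hy', twG_diag] at h1
    simp [two, map_ofNat, map_pow] at h1
    have h1' : f 1 0 0 * ((2 : k) * 2 ^ e) = f 1 0 0 * 1 := by
      rcases h1 with h1 | h1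
      · linear_combination -(2 : k) * f 1 0 0 * h1 + f 1 0 0 * hhalf
      · simp [h1]
    have hne : (2 : k) * 2 ^ e ≠ 1 := by
      rcases he' with rfl | rfl
      · intro h; exact natCast_ne (k := k) hp 1 2 (by norm_num) (by norm_num) (by push_cast; linear_combination -h)
      · intro h; exact natCast_ne (k := k) hp 1 4 (by norm_num) (by norm_num) (by push_cast; linear_combination -h)
    have h00 : f 1 0 0 = 0 := by
      by_contra h0
      exact hne (mul_left_cancel₀ h0 h1')
    intro a
    rw [hy', h00, mul_zero]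
  have hw : ∀ a, f a 1 1 = 0 := fun a => by
    have h := htr₁ (upperU p a)
    rw [Matrix.trace_fin_two] at h
    change f a 0 0 + f a 1 1 = 0 at h
    rwa [hy, zero_add] at h
  have hx : ∀ a, f a 0 1 = algebraMap (ZMod p) k a * f 1 0 1 :=
    hadd (fun A => A 0 1) fun a b => by
      show f (a + b) 0 1 = f a 0 1 + f b 0 1
      rw [hf, Matrix.add_apply, twG_upperU]; simp [hz, hy, hw]
  set s : k := -(f 1 0 1) / 2
  have hsd : ∀ x, twG p k e (diagHom p x) (!![s, 0; 0, -s]) = !![s, 0; 0, -s] := by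
    rintro ⟨u, v⟩
    rcases he' with rfl | rfl
    · rw [twG_diag, pow_zero, map_one, one_smul]
      ext i j
      fin_cases i <;> fin_cases j <;> simp [-Units.val_inv_eq_inv_val, -ZMod.inv_coe_unit]
    · suffices hs0 : s = 0 by
        have h0 : (!![0, 0; 0, 0] : Matrix (Fin 2) (Fin 2) k) = 0 := by
          ext i j; fin_cases i <;> fin_cases j <;> rfl
        rw [hs0, neg_zero, h0, map_zero]
      have h1 := congrFun (congrFun (hconj two 1 1) 0) 1
      rw [hx, twG_diag] at h1
      simp [two, map_ofNat] at h1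
      have h0 : f 1 0 1 = 0 := by
        rcases h1 with h1 | h1
        · linear_combination -h1
        · exact absurd h1 h2k
      simp [s, h0]
  set m₁ : Matrix (Fin 2) (Fin 2) k := !![s, 0; 0, -s]
  have hU : ∀ a, c₁ (upperU p a) = twG p k e (upperU p a) m₁ - m₁ := fun a => by
    show f a = _
    rw [twG_upperU]
    ext i j
    fin_cases i <;> fin_cases j <;> simp [m₁, hz, hy, hw]
    rw [hx]
    simp only [s]
    field_simp
    ring
  set c₂ : GL (Fin 2) (ZMod p) → Matrix (Fin 2) (Fin 2) k := fun g => c₁ g - (twG p k e g m₁ - m₁)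
  have hc₂ : ∀ g h, c₂ (g * h) = c₂ g + twG p k e g (c₂ h) := fun g h => by
    simp only [c₂]; rw [hc₁, hbdy]; simp only [map_sub]; abel
  have hm₁ : Matrix.trace m₁ = 0 := by simp [m₁, Matrix.trace_fin_two]
  have h1 : c₂ 1 = 0 := by
    have := hc₂ 1 1
    rw [mul_one, twG_one] at this
    simpa using this
  let W : Subgroup (GL (Fin 2) (ZMod p)) :=
    { carrier := {g | c₂ g = 0}
      one_mem' := h1
      mul_mem' := fun {a b} ha hb => by
        show c₂ (a * b) = 0
        rw [hc₂, show c₂ a = 0 from ha, show c₂ b = 0 from hb, map_zero, add_zero]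
      inv_mem' := fun {a} ha => by
        show c₂ a⁻¹ = 0
        have := hc₂ a⁻¹ a
        rw [inv_mul_cancel, h1, show c₂ a = 0 from ha, map_zero, add_zero] at this
        exact this.symm }
  have hord : orderOf (upperU p 1) = p := by
    have hpow : ∀ n : ℕ, upperU p 1 ^ n = upperU p n := fun n => by
      induction n with
      | zero => ext i j; fin_cases i <;> fin_cases j <;> simp [upperU]
      | succ n ih => rw [pow_succ, ih, ← upperU_add, Nat.cast_succ]
    refine orderOf_eq_prime ?_ fun h => one_ne_zero (α := ZMod p) (upperU_injective p (h.trans ?_))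
    · rw [hpow, ZMod.natCast_self]; ext i j; fin_cases i <;> fin_cases j <;> simp [upperU]
    · ext i j; fin_cases i <;> fin_cases j <;> simp [upperU]
  have hidx : (W.index : k) ≠ 0 := by
    rw [Ne, CharP.cast_eq_zero_iff k p]
    intro hd
    have hmem : upperU p 1 ∈ W := by
      show c₂ _ = 0
      simp [c₂, hU]
    have hpW : p ∣ Nat.card W := by
      have := orderOf_dvd_natCard (⟨upperU p 1, hmem⟩ : W)
      rwa [Subgroup.orderOf_mk, hord] at this
    have h2 := mul_dvd_mul hpW hd
    rw [W.card_mul_index, Matrix.card_GL_field, Fin.prod_univ_two, Fintype.card_eq_nat_card,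
      Nat.card_zmod] at h2
    obtain ⟨q, rfl⟩ := Nat.exists_eq_add_of_le hp
    have e1 : ((3 : ℕ).succ + q) ^ 2 - ((3 : ℕ).succ + q) ^ ((1 : Fin 2) : ℕ) =
        ((3 : ℕ).succ + q) * ((3 : ℕ).succ + q - 1) := by
      rw [Fin.val_one, pow_one, sq, Nat.mul_sub, mul_one]
    rw [e1, Fin.val_zero, pow_zero, mul_left_comm] at h2
    have h3 := Nat.dvd_of_mul_dvd_mul_left hpr.pos h2
    rcases hpr.dvd_mul.1 h3 with h | h
    · have := Nat.dvd_sub (dvd_pow_self ((3 : ℕ).succ + q) two_ne_zero) h
      rw [Nat.sub_sub_self (Nat.one_le_pow _ _ hpr.pos)] at this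
      exact hpr.ne_one (Nat.dvd_one.1 this)
    · exact absurd (Nat.le_of_dvd (by omega) h) (by omega)
  obtain ⟨m₂, hm₂, hm₂'⟩ := exists_bdy_of_vanishes (twG p k e) c₂ hc₂ W (fun w hw => hw) hidx N
    fun g => by
      show Matrix.trace (c₂ g) = 0
      simp [c₂, Matrix.trace_sub, htr₁, htw g m₁ hm₁, hm₁]
  replace hm₂ : Matrix.trace m₂ = 0 := hm₂
  refine ⟨m₀ + m₁ + m₂, by simp [Matrix.trace_add, hm₀, hm₁, hm₂], fun g => ?_⟩
  have := hm₂' g
  simp only [c₂, c₁] at this
  rw [map_add, map_add]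
  linear_combination (norm := abel) this

end FLTAgent.Lowering.P1.Primes
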